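/-
S44 / F / Dim (sub-architect helper102), leaf B3: the cusp `γ ∞` is not the cusp `∞` when `γ ∉ Γ₀(M)`.
-/
import Fermat.Agent.S44.F.Dim.Defs
import Fermat.Agent.GAL.GenusBridge.OrdersCusp

set_option autoImplicit false

noncomputable section

namespace Fermat.Agent.S44.F

open ModularCurve AlgebraicCurve Fermat.Agent.S24 Fermat.Agent.S24.B Fermat.Agent.S24.FF
  Fermat.Agent.S27.Riemann Fermat.Agent.GAL Fermat.Agent.GAL.GenusBridge
open UpperHalfPlane CongruenceSubgroup ModularFormClass Module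
open scoped MatrixGroups Manifold ModularForm

theorem CuspNe_gcd (M a b c d : ℤ) (h : a * d - b * c = 1) : Int.gcd (M * a) c = Int.gcd M c := by
  have hcop : IsCoprime a c := ⟨d, -b, by linear_combination h⟩
  have h1 : Nat.Coprime a.natAbs c.natAbs := Int.isCoprime_iff_gcd_eq_one.1 hcop
  rw [Int.gcd_eq_natAbs, Int.gcd_eq_natAbs, Int.natAbs_mul]
  exact Nat.Coprime.gcd_mul_right_cancel _ h1

theorem CuspNe_exists_hasTExp {M : ℕ} [NeZero M] (δ : SL(2, ℤ)) :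
    ∃ s : LaurentSeries Kbar, HasTExp M (fun τ => jfun (dilMat M • δ • τ)) s ∧
      s.order = -((Int.gcd (M : ℤ) (δ 1 0) : ℤ) ^ 2) := by
  have hMpos : (0 : ℤ) < M := by exact_mod_cast Nat.pos_of_ne_zero (NeZero.ne M)
  set α : Matrix (Fin 2) (Fin 2) ℤ := !![(M : ℤ), 0; 0, 1] * δ.1 with hα
  have hdet : α.det = M := by
    rw [hα, Matrix.det_mul, δ.2, mul_one]
    simp
  have h0 : ∀ j, α 0 j = M * δ 0 j := fun j => by
    rw [hα, Matrix.mul_apply, Fin.sum_univ_two]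
    simp
  have h1 : ∀ j, α 1 j = δ 1 j := fun j => by
    rw [hα, Matrix.mul_apply, Fin.sum_univ_two]
    simp
  let g : GL (Fin 2) ℝ := dilMat M * (δ : GL (Fin 2) ℝ)
  have hg : (g : Matrix (Fin 2) (Fin 2) ℝ) = α.map (Int.cast : ℤ → ℝ) := by
    rw [Units.val_mul]
    ext i j
    rw [Matrix.map_apply, Matrix.mul_apply, Fin.sum_univ_two]
    fin_cases i
    · simp [h0, dilMat]
    · simp [h1, dilMat]
  obtain ⟨s, hs, hord⟩ := exists_hasTExp_gen (N := M) g α (by rw [hdet]; exact hMpos)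
    (by rw [hdet]) hg
  have hfun : (fun τ => jfun (dilMat M • δ • τ)) = fun τ => jfun (g • τ) := by
    funext τ
    rw [mul_smul]
    rfl
  refine ⟨s, by rw [hfun]; exact hs, ?_⟩
  have h00 : α 0 0 = M * δ 0 0 := h0 0
  have h10 : α 1 0 = δ 1 0 := h1 0
  have hdetδ : δ 0 0 * δ 1 1 - δ 0 1 * δ 1 0 = 1 := by
    have := δ.2
    rwa [Matrix.det_fin_two] at this
  rw [hdet, h00, h10, CuspNe_gcd _ _ _ _ _ hdetδ] at hord
  have : (s.order + (Int.gcd (M : ℤ) (δ 1 0) : ℤ) ^ 2) * M = 0 := by linear_combination hord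
  rcases mul_eq_zero.1 this with h | h
  · linarith
  · omega

theorem order_texp_smul_jd {M : ℕ} [NeZero M] (γ : SL(2, ℤ)) :
    (texp M (γ • jd M M dvd_rfl)).order = -((Int.gcd (M : ℤ) (γ⁻¹ 1 0) : ℤ) ^ 2) := by
  obtain ⟨s, hs, hord⟩ := CuspNe_exists_hasTExp (M := M) γ⁻¹
  have hts : texp M (γ • jd M M dvd_rfl) = s := texp_eq hs
  rw [hts, hord]

theorem ordersCuspVal_valuationSubring_ne {M : ℕ} [NeZero M] (γ : SL(2, ℤ))
    (hγ : γ ∉ Gamma0 M) :
    (ordersCuspVal M γ).valuationSubring ≠ (S17.W.cusp M).toValuationSubring := by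
  intro heq
  have heq' : (ordersCuspVal M γ).valuationSubring = (S17.W.cuspVal M).valuationSubring := heq
  have hE := (Valuation.isEquiv_iff_valuationSubring _ _).2 heq'
  have hM0 : M ≠ 0 := NeZero.ne M
  have hMne : (M : ℤ) ≠ 0 := by exact_mod_cast hM0
  set x : FN M := JF M M dvd_rfl with hx
  have hxs : ((x : FN M) : LaurentSeries Kbar) = Jser M := rfl
  have hxord : (x : LaurentSeries Kbar).order = -(M : ℤ) := by
    rw [hxs, Jser_eq_qExpand, order_qExpand, order_Jser_one]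
    ring
  have hx0 : x ≠ 0 := by
    intro h
    rw [h] at hxord
    simp only [ZeroMemClass.coe_zero, HahnSeries.order_zero] at hxord
    omega
  have hjs : ((jF M : FN M) : LaurentSeries Kbar) = Jser 1 := rfl
  have hj0 : jF M ≠ 0 := by
    intro h
    have h1 : (Jser 1).order = 0 := by rw [← hjs, h]; simp
    rw [order_Jser_one] at h1
    omega
  have hWx : S17.W.cuspVal M x = WithZero.exp (M : ℤ) := by
    rw [S17.W.cuspVal_eq_exp_neg_order M x hx0, hxord, neg_neg]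
  have hWj : S17.W.cuspVal M (jF M ^ M) = WithZero.exp (M : ℤ) := by
    rw [map_pow, S17.W.cuspVal_eq_exp_neg_order M _ hj0, hjs, order_Jser_one, neg_neg,
      ← WithZero.exp_nsmul]
    simp
  have hV : ordersCuspVal M γ x = ordersCuspVal M γ (jF M ^ M) :=
    le_antisymm ((hE _ _).2 (by rw [hWx, hWj])) ((hE _ _).2 (by rw [hWx, hWj]))
  have ht0 : texp M (γ • jd M M dvd_rfl) ≠ 0 := by
    intro h
    have h1 := order_texp_smul_jd (M := M) γ
    rw [h, HahnSeries.order_zero] at h1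
    have h2 : (Int.gcd (M : ℤ) (γ⁻¹ 1 0) : ℤ) = 0 := by
      have : (Int.gcd (M : ℤ) (γ⁻¹ 1 0) : ℤ) ^ 2 = 0 := by linarith
      exact pow_eq_zero_iff (two_ne_zero) |>.1 this
    have h3 : Int.gcd (M : ℤ) (γ⁻¹ 1 0) = 0 := by exact_mod_cast h2
    exact hMne (Int.gcd_eq_zero_iff.1 h3).1
  rw [map_pow, ordersCuspVal_jF, ordersCuspVal_apply, hx, Psi_JF, smul_algebraMap_AL,
    texpL_algebraMap, lval_of_ne_zero ht0, order_texp_smul_jd, neg_neg, ← WithZero.exp_nsmul,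
    WithZero.exp_inj] at hV
  have h4 : (Int.gcd (M : ℤ) (γ⁻¹ 1 0)) ^ 2 = M ^ 2 := by
    have : ((Int.gcd (M : ℤ) (γ⁻¹ 1 0) : ℤ)) ^ 2 = (M : ℤ) ^ 2 := by
      rw [hV, nsmul_eq_mul, sq]
    exact_mod_cast this
  have h5 : Int.gcd (M : ℤ) (γ⁻¹ 1 0) = M := Nat.pow_left_injective (n := 2) (by norm_num) h4
  have h6 : (M : ℤ) ∣ γ⁻¹ 1 0 := by
    have := Int.gcd_dvd_right (M : ℤ) (γ⁻¹ 1 0)
    rwa [h5] at this
  have h7 : γ⁻¹ ∈ Gamma0 M := by
    rw [Gamma0_mem, ZMod.intCast_zmod_eq_zero_iff_dvd]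
    exact h6
  exact hγ ((Gamma0 M).inv_mem_iff.1 h7)

end Fermat.Agent.S44.F

end
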