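/-
S44 / F / Dim (sub-architect helper102), leaf B1 (task 3035, helper84):
a valuation of a function field which is trivial on the constants and different from the place `v₀`
is `≤ 1` on `L(m v₀)`.
-/
import Fermat.Agent.S27.Riemann.Basic
import Fermat.Agent.S27.H.ValSubring

set_option autoImplicit false

namespace Fermat.Agent.S44.F

open AlgebraicCurve Fermat.Agent.S24.FF Fermat.Agent.S27.Riemann

theorem map_le_one_of_mem_L_single {K F : Type*} [Field K] [Field F] [Algebra K F] [IsAlgClosed K]
    [CharZero K] [IsFF1 K F] {Γ₀ : Type*} [LinearOrderedCommGroupWithZero Γ₀]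
    (V : Valuation F Γ₀) (hV : ∀ c : K, V (algebraMap K F c) ≤ 1) (v₀ : Place K F) (m : ℤ) (f : F)
    (hf : f ∈ riemannRochSpace (Finsupp.single v₀ m))
    (hne : V.valuationSubring ≠ v₀.toValuationSubring) : V f ≤ 1 := by
  have hmem : ∀ g : F, g ∈ V.valuationSubring ↔ V g ≤ 1 := fun g =>
    Valuation.mem_valuationSubring_iff V g
  by_cases hA : V.valuationSubring = ⊤
  · have : f ∈ V.valuationSubring := by rw [hA]; exact ValuationSubring.mem_top f
    exact (hmem f).1 this
  have hK : ∀ a : K, algebraMap K F a ∈ V.valuationSubring := fun a => (hmem _).2 (hV a)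
  let v : Place K F := Fermat.Agent.S27.H.placeOfValuationSubring V.valuationSubring hK hA
  have hv : ∀ g : F, V g ≤ 1 ↔ 0 ≤ v.ord g := fun g => by
    rw [← hmem g]
    exact Fermat.Agent.S24.FF.mem_iff_ord_nonneg v
  have hvne : v₀ ≠ v := by
    intro h
    apply hne
    rw [h]
    rfl
  rcases eq_or_ne f 0 with rfl | hf0
  · simp
  have h1 : 0 ≤ v.ord f := by
    rcases (mem_riemannRochSpace_iff.1 hf v) with h | h
    · exact absurd h hf0
    · simpa [Finsupp.single_apply, hvne] using h
  exact (hv f).2 h1

end Fermat.Agent.S44.F
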