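/-
S44 / F / Dim, leaf B2 (task F-DIM-B2): an element of `L(m ∞)` has no pole on the upper half plane.
(Copy of `GAL.GenusBridge.ordAt_le_of_mem_L`.)
-/
import Fermat.Agent.S44.F.Dim.Defs
import Fermat.Agent.GAL.GenusBridge.Orders
import Fermat.Agent.S44.F.Dim.Bridge.Val

set_option autoImplicit false

noncomputable section

namespace Fermat.Agent.S44.F

open ModularCurve AlgebraicCurve Fermat.Agent.S24 Fermat.Agent.S24.B Fermat.Agent.S24.FF
  Fermat.Agent.S27.Riemann Fermat.Agent.GAL Fermat.Agent.GAL.GenusBridge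
open UpperHalfPlane CongruenceSubgroup ModularFormClass Module
open scoped MatrixGroups Manifold ModularForm

theorem ordAt_le_of_mem_Linf {M : ℕ} [NeZero M] {m : ℕ} (f : FN M) (hf : f ∈ Linf M m)
    (a b : AL M) (hb : b ≠ 0)
    (hab : Psi M f * algebraMap (AL M) (LN M) b = algebraMap (AL M) (LN M) a) (τ₀ : ℍ) :
    ordAt τ₀ b.1 ≤ ordAt τ₀ a.1 := by
  let V : Valuation (FN M) (WithZero (Multiplicative ℤ)) :=
    ((lval ℂ).comap (wexpL M τ₀)).comap (Psi M).toRingHom
  have hVapp : ∀ g : FN M, V g = lval ℂ (wexpL M τ₀ (Psi M g)) := fun g => rfl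
  have hVc : ∀ c : Kbar, V (algebraMap Kbar (FN M) c) ≤ 1 := by
    intro c
    rw [hVapp, AlgHom.commutes, wexpL_algebraMap_Kbar, ← HahnSeries.ofPowerSeries_C]
    exact Orders_lval_ofPowerSeries_le_one _
  have hVj : V (jF M) ≤ 1 := by
    have h1 : Psi M (jF M) = algebraMap (AL M) (LN M) (jd M 1 (one_dvd M)) := Psi_JF 1 (one_dvd M)
    rw [hVapp, h1, wexpL_algebraMap]
    exact Orders_lval_ofPowerSeries_le_one _
  have hne : V.valuationSubring ≠ (S17.W.cusp M).toValuationSubring := by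
    intro heq
    have h1 : jF M ∈ V.valuationSubring := (Valuation.mem_valuationSubring_iff V _).2 hVj
    rw [heq, S17.W.mem_cusp_iff] at h1
    have h2 := h1 (-1) (by norm_num)
    have hj : ((jF M : FN M) : LaurentSeries Kbar) = Jser 1 := rfl
    rw [hj, ← B.order_Jser_one, HahnSeries.coeff_order_eq_zero] at h2
    have h3 := B.order_Jser_one
    rw [h2, HahnSeries.order_zero] at h3
    omega
  have hVf : V f ≤ 1 := map_le_one_of_mem_L_single V hVc (S17.W.cusp M) m f hf hne
  rw [hVapp] at hVf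
  have hab' := congrArg (wexpL M τ₀) hab
  rw [map_mul, wexpL_algebraMap, wexpL_algebraMap] at hab'
  rw [← order_wexp, ← order_wexp]
  have hwb : wexp M τ₀ b ≠ 0 := by
    intro h
    exact hb (wexp_injective τ₀ (by rw [h, map_zero]))
  by_cases hwa : wexp M τ₀ a = 0
  · rw [hwa, PowerSeries.order_zero]
    exact le_top
  · have hle : lval ℂ (HahnSeries.ofPowerSeries ℤ ℂ (wexp M τ₀ a)) ≤
        lval ℂ (HahnSeries.ofPowerSeries ℤ ℂ (wexp M τ₀ b)) := by
      rw [← hab', map_mul]
      exact mul_le_of_le_one_left' hVf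
    rw [Orders_lval_ofPowerSeries _ hwa, Orders_lval_ofPowerSeries _ hwb,
      WithZero.exp_le_exp] at hle
    have hfa : (wexp M τ₀ a).order = (((wexp M τ₀ a).order.toNat : ℕ) : ℕ∞) := by
      rw [ENat.natCast_toNat]
      exact fun h => hwa (PowerSeries.order_eq_top.mp h)
    have hfb : (wexp M τ₀ b).order = (((wexp M τ₀ b).order.toNat : ℕ) : ℕ∞) := by
      rw [ENat.natCast_toNat]
      exact fun h => hwb (PowerSeries.order_eq_top.mp h)
    rw [hfa, hfb]
    have : (wexp M τ₀ b).order.toNat ≤ (wexp M τ₀ a).order.toNat := by omega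
    exact_mod_cast this

end Fermat.Agent.S44.F

end
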