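/-
S44 / F / Dim (sub-architect helper102), leaf B4 (owner helper68): a quotient `u = a / b` of two
functions with `t`-expansions, `ord a ≥ ord b` at `i∞`, is bounded at `i∞`.
-/
import Fermat.Agent.GAL.GenusBridge.Cusp

set_option autoImplicit false

noncomputable section

namespace Fermat.Agent.S44.F

open Fermat.Agent.S24 Fermat.Agent.S24.B Fermat.Agent.GAL.GenusBridge
open UpperHalfPlane
open scoped MatrixGroups Manifold

theorem bdd_of_hasTExp {N : ℕ} [NeZero N] {u a b : ℍ → ℂ} {sa sb : LaurentSeries Kbar}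
    (ha : HasTExp N a sa) (hb : HasTExp N b sb) (hsb : sb ≠ 0) (hub : ∀ τ, u τ * b τ = a τ)
    (hord : ∀ k : ℤ, k < sb.order → sa.coeff k = 0) : IsBoundedAtImInfty u := by
  set n : ℤ := sb.order with hn
  have hβ : iota (sb.coeff n) ≠ 0 := by
    intro h
    exact hsb (HahnSeries.coeff_order_eq_zero.mp (iota_injective (by rw [h, map_zero])))
  -- (1) `t ^ (-n) * b` tends to a nonzero limit
  have hB := Cusp_tendsto_shift hb (-n) (by
    intro k hk
    exact HahnSeries.coeff_eq_zero_of_lt_order (by omega))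
  rw [neg_neg] at hB
  -- (2) `t ^ (-n) * a` has a limit
  have hA := Cusp_tendsto_shift ha (-n) (by
    intro k hk
    exact hord k (by omega))
  have hlim := hA.div hB hβ
  have hne : ∀ᶠ τ : ℍ in atImInfty,
      Function.Periodic.qParam N τ ^ (-n) * b τ ≠ 0 := hB.eventually_ne hβ
  have hev : (fun τ : ℍ => (Function.Periodic.qParam N τ ^ (-n) * a τ) /
      (Function.Periodic.qParam N τ ^ (-n) * b τ)) =ᶠ[atImInfty] u := by
    filter_upwards [hne] with τ hτ
    rw [div_eq_iff hτ, ← hub τ]
    ring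
  exact (hlim.congr' hev).isBigO_one ℝ

end Fermat.Agent.S44.F

end
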