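/-
S44 / F / Dim (sub-architect helper102), leaf B5 (helper147): `u = a / b` minus the polar part of its
`q`-expansion is bounded at `i∞`.
-/
import Fermat.Agent.S44.F.Dim.Bridge.Bdd
import Fermat.Agent.S44.F.I1.Defs
import Fermat.Agent.S24.B.TExp
import Fermat.Agent.GAL.GenusBridge.Cusp

set_option autoImplicit false

noncomputable section

namespace Fermat.Agent.S44.F

open ModularCurve Fermat.Agent.S24 Fermat.Agent.S24.B Fermat.Agent.GAL Fermat.Agent.GAL.GenusBridge
open UpperHalfPlane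

/-- the expansion of a polar part -/
private theorem Polar_hasTExp {N : ℕ} [NeZero N] (c : ℕ → Kbar) (S : Finset ℕ) :
    HasTExp N (fun τ => ∑ n ∈ S, iota (c n) * I1.qq τ ^ (-(n : ℤ)))
      (qExpand Kbar N (∑ n ∈ S, HahnSeries.single (-(n : ℤ)) (c n))) := by
  classical
  induction S using Finset.induction_on with
  | empty =>
    intro τ
    simp
  | insert n S hn ih =>
    have h1 := HasTExp.single (N := N) ((N : ℤ) * (-(n : ℤ))) (c n)
    have h2 := h1.add ih
    rw [Finset.sum_insert hn, map_add, qExpand_single]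
    convert h2 using 1
    funext τ
    rw [Finset.sum_insert hn, Pi.add_apply, zpow_mul, Cusp_qParam_pow]
    rfl

/-- the non-polar part has no negative coefficient -/
private theorem Polar_coeff (s : LaurentSeries Kbar) (m : ℕ)
    (hm : ∀ k : ℤ, k < -(m : ℤ) → s.coeff k = 0) (j : ℤ) (hj : j < 0) :
    (s - ∑ n ∈ Finset.Icc 1 m, HahnSeries.single (-(n : ℤ)) (s.coeff (-(n : ℤ)))).coeff j = 0 := by
  classical
  rw [HahnSeries.coeff_sub, HahnSeries.coeff_sum]
  by_cases hjm : j < -(m : ℤ)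
  · rw [hm j hjm, zero_sub, neg_eq_zero]
    apply Finset.sum_eq_zero
    intro n hn
    apply HahnSeries.coeff_single_of_ne
    have := (Finset.mem_Icc.1 hn).2
    omega
  · have hmem : (-j).toNat ∈ Finset.Icc 1 m := by
      rw [Finset.mem_Icc]
      omega
    have hcast : (-(((-j).toNat : ℕ) : ℤ)) = j := by omega
    rw [Finset.sum_eq_single_of_mem _ hmem, hcast, HahnSeries.coeff_single_same, sub_self]
    intro n _ hne
    apply HahnSeries.coeff_single_of_ne
    omega

private theorem Polar_qExpand_coeff {N : ℕ} [NeZero N] (t : LaurentSeries Kbar)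
    (ht : ∀ j : ℤ, j < 0 → t.coeff j = 0) (k : ℤ) (hk : k < 0) :
    (qExpand Kbar N t).coeff k = 0 := by
  by_cases hdvd : (N : ℤ) ∣ k
  · obtain ⟨j, rfl⟩ := hdvd
    rw [qExpand_coeff_mul]
    apply ht
    have hN : (0 : ℤ) < N := by exact_mod_cast Nat.pos_of_ne_zero (NeZero.ne N)
    by_contra hj
    have := mul_nonneg hN.le (not_lt.1 hj)
    omega
  · exact qExpand_coeff_of_not_dvd N t hdvd

private theorem Polar_mul_coeff (r sb : LaurentSeries Kbar) (hr : ∀ j : ℤ, j < 0 → r.coeff j = 0)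
    (k : ℤ) (hk : k < sb.order) : (r * sb).coeff k = 0 := by
  rw [HahnSeries.coeff_mul]
  apply Finset.sum_eq_zero
  rintro ⟨i, j⟩ hij
  rw [Finset.mem_antidiagonal] at hij
  obtain ⟨hi, hj, hsum⟩ := hij
  exfalso
  have h1 : 0 ≤ i := by
    by_contra h
    exact hi (hr i (not_le.1 h))
  have h2 : sb.order ≤ j := HahnSeries.order_le_of_coeff_ne_zero hj
  simp only at hsum
  omega

theorem bdd_sub_polar {N : ℕ} [NeZero N] {u a b : ℍ → ℂ} {sa sb : LaurentSeries Kbar}
    (ha : HasTExp N a sa) (hb : HasTExp N b sb) (hsb : sb ≠ 0) (hub : ∀ τ, u τ * b τ = a τ)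
    (s : LaurentSeries Kbar) (hs : qExpand Kbar N s * sb = sa) (m : ℕ)
    (hm : ∀ k : ℤ, k < -(m : ℤ) → s.coeff k = 0) :
    IsBoundedAtImInfty (fun τ => u τ -
      ∑ n ∈ Finset.Icc 1 m, iota (s.coeff (-(n : ℤ))) * I1.qq τ ^ (-(n : ℤ))) := by
  have hP := Polar_hasTExp (N := N) (fun n => s.coeff (-(n : ℤ))) (Finset.Icc 1 m)
  have h1 := ha.sub (hP.mul hb)
  refine bdd_of_hasTExp h1 hb hsb (fun τ => ?_) (fun k hk => ?_)
  · rw [Pi.sub_apply, Pi.mul_apply, sub_mul, hub]
  · rw [← hs, ← sub_mul, ← map_sub]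
    exact Polar_mul_coeff _ sb (Polar_qExpand_coeff _ (Polar_coeff s m hm)) k hk

end Fermat.Agent.S44.F

end
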