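/-
S44 / F / Dim (sub-architect helper102).  The bridge: the principal part of a function of `L(m ∞)` is
orthogonal to the `q`-expansions of the cusp forms of weight two ((I1) + GenusBridge).
-/
import Fermat.Agent.S44.F.Dim.Bridge.Hol
import Fermat.Agent.S44.F.Dim.Bridge.CuspNe
import Fermat.Agent.S44.F.Dim.Bridge.Polar
import Fermat.Agent.S44.F.I1.Main
import Fermat.Agent.GAL.GenusBridge.Main

set_option autoImplicit false

noncomputable section

namespace Fermat.Agent.S44.F

open ModularCurve AlgebraicCurve Fermat.Agent.S24 Fermat.Agent.S24.B Fermat.Agent.S24.FF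
  Fermat.Agent.S27.Riemann Fermat.Agent.GAL Fermat.Agent.GAL.GenusBridge
open UpperHalfPlane CongruenceSubgroup ModularFormClass Module
open scoped MatrixGroups Manifold ModularForm

variable {M : ℕ} [NeZero M]

omit [NeZero M] in
/-- the coefficients of index `< -m` of an element of `L(m ∞)` vanish -/
theorem dim_coeff_eq_zero_of_mem_Linf {m : ℕ} {f : FN M} (hf : f ∈ Linf M m) {k : ℤ}
    (hk : k < -(m : ℤ)) : (f : LaurentSeries Kbar).coeff k = 0 := by
  rcases eq_or_ne f 0 with rfl | hf0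
  · simp
  rcases (mem_riemannRochSpace_iff.1 hf (S17.W.cusp M)) with h | h
  · exact absurd h hf0
  · rw [S17.W.ord_cusp M f hf0, Finsupp.single_eq_same] at h
    exact HahnSeries.coeff_eq_zero_of_lt_order (by omega)

/-- invariance of the quotient `u = a / b` representing `Psi M f` -/
theorem bridge_invariant (f : FN M) (a b : AL M) (hb : b ≠ 0)
    (hab : Psi M f * algebraMap (AL M) (LN M) b = algebraMap (AL M) (LN M) a)
    (u : ℍ → ℂ) (hu : MDiff u) (hub : ∀ τ, u τ * b.1 τ = a.1 τ) (γ : SL(2, ℤ))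
    (hγ : γ ∈ Gamma0 M) (τ : ℍ) : u (γ • τ) = u τ := by
  have hinv : (fun τ => u (γ • τ)) - u = 0 := by
    have hγ' : γ⁻¹ ∈ CongruenceSubgroup.Gamma0 M := inv_mem hγ
    have h1 := smul_rel hab γ⁻¹
    rw [smul_Psi_of_mem_Gamma0 γ⁻¹ hγ' f] at h1
    have h2 : (γ⁻¹ • a) * b = a * (γ⁻¹ • b) := by
      apply algebraMap_AL_injective
      rw [map_mul, map_mul, ← h1, ← hab]
      ring
    have h3 : ∀ τ, a.1 (γ • τ) * b.1 τ = a.1 τ * b.1 (γ • τ) := by
      intro τ
      have := congrArg (fun x : AL M => x.1 τ) h2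
      simpa [smul_AL_apply] using this
    have hmd : MDiff (fun τ => u (γ • τ)) := by
      have := hu.comp (mdifferentiable_smul (g := (γ : GL (Fin 2) ℝ)) (by simp))
      exact this
    refine eq_zero_of_mul_eq_zero (v := ((γ⁻¹ • b) * b : AL M).1) (hmd.sub hu)
      (Stubs.mdiff_of_mem_AL ((γ⁻¹ • b) * b : AL M).2) ?_
      (coe_ne_zero_AL (mul_ne_zero (smul_ne_zero_AL hb _) hb))
    intro τ
    have e1 : ((γ⁻¹ • b) * b : AL M).1 τ = b.1 (γ • τ) * b.1 τ := by
      show (γ⁻¹ • b).1 τ * b.1 τ = _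
      rw [smul_AL_apply, inv_inv]
    rw [e1]
    have := h3 τ
    rw [← hub, ← hub] at this
    simp only [Pi.sub_apply]
    linear_combination this
  have := congrFun hinv τ
  simpa only [Pi.sub_apply, Pi.zero_apply, sub_eq_zero] using this

/-- boundedness at the cusps different from `∞` -/
theorem bridge_regular {m : ℕ} (f : FN M) (hf : f ∈ Linf M m) (a b : AL M) (hb : b ≠ 0)
    (hab : Psi M f * algebraMap (AL M) (LN M) b = algebraMap (AL M) (LN M) a)
    (u : ℍ → ℂ) (hub : ∀ τ, u τ * b.1 τ = a.1 τ) (γ : SL(2, ℤ)) (hγ : γ ∉ Gamma0 M) :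
    IsBoundedAtImInfty (fun τ => u (γ • τ)) := by
  have hγ' : γ⁻¹ ∉ Gamma0 M := fun h => hγ (by simpa using inv_mem h)
  have hb' : γ⁻¹ • b ≠ 0 := smul_ne_zero_AL hb _
  have htb : texp M (γ⁻¹ • b) ≠ 0 := fun h => hb' (texp_injective (by rw [h, map_zero]))
  refine bdd_of_hasTExp (N := M) (hasTExp_texp (γ⁻¹ • a)) (hasTExp_texp (γ⁻¹ • b)) htb ?_ ?_
  · intro τ
    rw [smul_AL_apply, smul_AL_apply, inv_inv]
    exact hub _
  · intro k hk
    have hV := map_le_one_of_mem_L_single (K := Kbar) (ordersCuspVal M γ⁻¹)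
      (ordersCuspVal_algebraMap_le γ⁻¹) (S17.W.cusp M) m f hf
      (ordersCuspVal_valuationSubring_ne γ⁻¹ hγ')
    rw [ordersCuspVal_apply] at hV
    have hE : texpL M (γ⁻¹ • Psi M f) * texp M (γ⁻¹ • b) = texp M (γ⁻¹ • a) := by
      rw [← texpL_algebraMap, ← texpL_algebraMap, ← map_mul, smul_rel hab γ⁻¹]
    by_cases hta : texp M (γ⁻¹ • a) = 0
    · rw [hta]; simp
    have htf : texpL M (γ⁻¹ • Psi M f) ≠ 0 := by
      intro h
      rw [h, zero_mul] at hE
      exact hta hE.symm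
    have hord := HahnSeries.order_mul htf htb
    rw [hE] at hord
    rw [lval_of_ne_zero htf, ← WithZero.exp_zero, WithZero.exp_le_exp] at hV
    exact HahnSeries.coeff_eq_zero_of_lt_order (by omega)

/-- **The bridge.** -/
theorem pp_orthogonal {m : ℕ} (f : FN M) (hf : f ∈ Linf M m) (g : CuspForm (Gamma0 M) 2) :
    ∑ n ∈ Finset.Icc 1 m, iota ((f : LaurentSeries Kbar).coeff (-(n : ℤ))) * qCoeff g n = 0 := by
  obtain ⟨a, b, hbm, hdiv⟩ := IsFractionRing.div_surjective (A := AL M) (Psi M f)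
  have hb : b ≠ 0 := nonZeroDivisors.ne_zero hbm
  have hb1 : algebraMap (AL M) (LN M) b ≠ 0 := fun h =>
    hb (algebraMap_AL_injective (N := M) (by rw [h, map_zero]))
  have hab : Psi M f * algebraMap (AL M) (LN M) b = algebraMap (AL M) (LN M) a := by
    rw [← hdiv, div_mul_cancel₀ _ hb1]
  obtain ⟨u, hu, hub⟩ := exists_mdiff_mul_eq (Stubs.mdiff_of_mem_AL a.2)
    (Stubs.mdiff_of_mem_AL b.2) (coe_ne_zero_AL hb) (ordAt_le_of_mem_Linf f hf a b hb hab)
  have htb : texp M b ≠ 0 := fun h => hb (texp_injective (by rw [h, map_zero]))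
  have hs : qExpand Kbar M (f : LaurentSeries Kbar) * texp M b = texp M a := by
    have h1 : texpL M (Psi M f) = qExpand Kbar M (f : LaurentSeries Kbar) := texpL_Psi f
    rw [← h1, ← texpL_algebraMap, ← texpL_algebraMap, ← map_mul, hab]
  exact I1.const_term_vanishes M u hu (fun γ hγ τ => bridge_invariant f a b hb hab u hu hub γ hγ τ)
    m (fun n => iota ((f : LaurentSeries Kbar).coeff (-(n : ℤ))))
    (bdd_sub_polar (hasTExp_texp a) (hasTExp_texp b) htb hub _ hs m
      (fun k hk => dim_coeff_eq_zero_of_mem_Linf hf hk))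
    (fun γ hγ => bridge_regular f hf a b hb hab u hub γ hγ) g

end Fermat.Agent.S44.F

end
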